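import Mathlib

set_option autoImplicit false

namespace Fermat.Agent.S53.ProRep

/-- Dependent choice along `ℕ` with an invariant and a step relation. -/
theorem exists_seq_of_step {α : Type*} (Q : ℕ → α → Prop) (Rel : ℕ → α → α → Prop) (a0 : α)
    (h0 : Q 0 a0) (hstep : ∀ n a, Q n a → ∃ b, Q (n + 1) b ∧ Rel n a b) :
    ∃ s : ℕ → α, s 0 = a0 ∧ (∀ n, Q n (s n)) ∧ ∀ n, Rel n (s n) (s (n + 1)) := by
  classical
  let t : (n : ℕ) → {a : α // Q n a} := fun n =>
    Nat.rec (motive := fun n => {a : α // Q n a}) ⟨a0, h0⟩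
      (fun n a => ⟨Classical.choose (hstep n a.1 a.2), (Classical.choose_spec (hstep n a.1 a.2)).1⟩) n
  refine ⟨fun n => (t n).1, rfl, fun n => (t n).2, fun n => ?_⟩
  exact (Classical.choose_spec (hstep n (t n).1 (t n).2)).2

/-- Successive approximation in an adically precomplete ring along a decreasing chain of
ideals `K n` which are open and satisfy `K n ≤ K (n+1) ⊔ 𝔳 ^ e n`. -/
theorem approx {Λ : Type*} [CommRing Λ] (𝔳 : Ideal Λ) [IsPrecomplete 𝔳 Λ] (K : ℕ → Ideal Λ)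
    (e : ℕ → ℕ) (he : ∀ n, n ≤ e n) (hemono : Monotone e)
    (hKv : ∀ n, 𝔳 ^ (e n) ≤ K n)
    (hKstep : ∀ n, K n ≤ K (n + 1) ⊔ 𝔳 ^ (e n))
    (f : ℕ → Λ) (hf : ∀ n, f (n + 1) - f n ∈ K n) :
    ∃ L : Λ, (∀ n, L - f n ∈ K n) ∧ L - f 0 ∈ 𝔳 ^ (e 0) := by
  -- build the corrected sequence
  obtain ⟨g, hg0, hgQ, hgR⟩ := exists_seq_of_step (α := Λ)
    (fun n g => f n - g ∈ K n) (fun n g g' => g' - g ∈ 𝔳 ^ (e n)) (f 0) (by simp)
    (by
      intro n g hg
      have h1 : f (n + 1) - g ∈ K n := by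
        have : f (n + 1) - g = (f (n + 1) - f n) + (f n - g) := by ring
        rw [this]; exact (K n).add_mem (hf n) hg
      obtain ⟨κ, hκ, v, hv, hκv⟩ := Submodule.mem_sup.mp (hKstep n h1)
      refine ⟨f (n + 1) - κ, ?_, ?_⟩
      · simpa using hκ
      · have : f (n + 1) - κ - g = v := by
          have h3 : f (n + 1) - κ - g = (f (n + 1) - g) - κ := by ring
          rw [h3, ← hκv]; ring
        rw [this]; exact hv)
  -- differences
  have hdiff : ∀ m n, m ≤ n → g n - g m ∈ 𝔳 ^ (e m) := by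
    intro m n hmn
    induction n, hmn using Nat.le_induction with
    | base => simp
    | succ n hmn ih =>
      have : g (n + 1) - g m = (g (n + 1) - g n) + (g n - g m) := by ring
      rw [this]
      exact (𝔳 ^ (e m)).add_mem (Ideal.pow_le_pow_right (hemono hmn) (hgR n)) ih
  have hcauchy : ∀ {m n : ℕ}, m ≤ n → g m ≡ g n [SMOD (𝔳 ^ m • ⊤ : Submodule Λ Λ)] := by
    intro m n hmn
    rw [SModEq.sub_mem, smul_eq_mul, Ideal.mul_top]
    have h := hdiff m n hmn
    have h2 : g m - g n = -(g n - g m) := by ring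
    rw [h2]
    exact (𝔳 ^ m).neg_mem (Ideal.pow_le_pow_right (he m) h)
  obtain ⟨L, hL⟩ := IsPrecomplete.prec ‹IsPrecomplete 𝔳 Λ› hcauchy
  have hL' : ∀ n, L - g n ∈ 𝔳 ^ n := by
    intro n
    have h := hL n
    rw [SModEq.sub_mem, smul_eq_mul, Ideal.mul_top] at h
    have h2 : L - g n = -(g n - L) := by ring
    rw [h2]; exact (𝔳 ^ n).neg_mem h
  have key : ∀ n, L - g n ∈ 𝔳 ^ (e n) := by
    intro n
    have h1 := hL' (max n (e n))
    have h2 := hdiff n (max n (e n)) (le_max_left _ _)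
    have : L - g n = (L - g (max n (e n))) + (g (max n (e n)) - g n) := by ring
    rw [this]
    exact (𝔳 ^ (e n)).add_mem (Ideal.pow_le_pow_right (le_max_right _ _) h1) h2
  refine ⟨L, fun n => ?_, ?_⟩
  · have : L - f n = (L - g n) - (f n - g n) := by ring
    rw [this]
    exact (K n).sub_mem (hKv n (key n)) (hgQ n)
  · have := key 0
    rwa [hg0] at this

end Fermat.Agent.S53.ProRep
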