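import Mathlib
import Fermat.Prelude.Thm_IsAdicComplete_of_module_finite
import Fermat.Agent.S53.ProRep.Approx

set_option autoImplicit false
set_option linter.style.haveILetI false
set_option linter.unusedSectionVars false
set_option linter.unusedVariables false

open IsLocalRing

namespace Fermat.Agent.S53.ProRep

/-- Hypotheses for the ring-theoretic pro-representability construction: a filter-like family
`ℱ` of ideals of an `𝒪`-algebra `P` with finite local quotients, topologically generated by the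
finite family `z`. -/
structure Hyp {𝒪 : Type} [CommRing 𝒪] {P : Type} [CommRing P] [Algebra 𝒪 P]
    (𝔫 : Ideal P) (ℱ : Set (Ideal P)) {σ : Type} (z : σ → P) : Prop where
  max : 𝔫.IsMaximal
  surj : Function.Surjective ((Ideal.Quotient.mk 𝔫).comp (algebraMap 𝒪 P))
  le : ∀ I ∈ ℱ, I ≤ 𝔫
  pow_le : ∀ I ∈ ℱ, ∃ n : ℕ, 𝔫 ^ n ≤ I
  fin : ∀ I ∈ ℱ, Finite (P ⧸ I)
  inf : ∀ I ∈ ℱ, ∀ J ∈ ℱ, I ⊓ J ∈ ℱ
  up : ∀ I ∈ ℱ, ∀ J : Ideal P, I ≤ J → J ≤ 𝔫 → J ∈ ℱ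
  top : 𝔫 ∈ ℱ
  hz : ∀ i, z i ∈ 𝔫
  gen : ∀ I ∈ ℱ, 𝔫 ≤ I ⊔ Ideal.span (Set.range z)

section Core

variable {𝒪 : Type} [CommRing 𝒪] {P : Type} [CommRing P] [Algebra 𝒪 P]
variable {𝔫 : Ideal P} {ℱ : Set (Ideal P)} {σ : Type} {z : σ → P}

/-- the evaluation map from the polynomial ring -/
noncomputable def aev (𝒪 : Type) [CommRing 𝒪] {P : Type} [CommRing P] [Algebra 𝒪 P]
    {σ : Type} (z : σ → P) : MvPolynomial σ 𝒪 →ₐ[𝒪] P := MvPolynomial.aeval z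

theorem map_idealOfVars :
    (MvPolynomial.idealOfVars σ 𝒪).map (aev 𝒪 z) = Ideal.span (Set.range z) := by
  rw [MvPolynomial.idealOfVars, Ideal.map_span, ← Set.range_comp]
  congr 2
  ext i
  simp [aev]

theorem Hyp.span_le (H : Hyp (𝒪 := 𝒪) 𝔫 ℱ z) : Ideal.span (Set.range z) ≤ 𝔫 :=
  Ideal.span_le.mpr (by rintro _ ⟨i, rfl⟩; exact H.hz i)

theorem Hyp.map_idealOfVars_pow_le (H : Hyp (𝒪 := 𝒪) 𝔫 ℱ z) (n : ℕ) :
    (MvPolynomial.idealOfVars σ 𝒪 ^ n).map (aev 𝒪 z) ≤ 𝔫 ^ n := by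
  rw [Ideal.map_pow, map_idealOfVars]
  exact Ideal.pow_right_mono H.span_le n

theorem sup_pow_le_sup (I J : Ideal P) (n : ℕ) (hn : n ≠ 0) : (I ⊔ J) ^ n ≤ I ⊔ J ^ n := by
  induction n with
  | zero => exact absurd rfl hn
  | succ n ih =>
    rcases Nat.eq_zero_or_pos n with rfl | hpos
    · simp
    · have h := ih hpos.ne'
      calc (I ⊔ J) ^ (n + 1) = (I ⊔ J) ^ n * (I ⊔ J) := pow_succ _ _
        _ ≤ (I ⊔ J ^ n) * (I ⊔ J) := Ideal.mul_mono_left h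
        _ ≤ I ⊔ J ^ (n + 1) := by
          rw [Ideal.sup_mul, Ideal.mul_sup, Ideal.mul_sup, pow_succ]
          refine sup_le (sup_le ?_ ?_) (sup_le ?_ le_sup_right)
          · exact le_sup_of_le_left Ideal.mul_le_left
          · exact le_sup_of_le_left Ideal.mul_le_left
          · exact le_sup_of_le_left Ideal.mul_le_right

theorem Hyp.pow_le_sup (H : Hyp (𝒪 := 𝒪) 𝔫 ℱ z) {I : Ideal P} (hI : I ∈ ℱ) (n : ℕ) (hn : n ≠ 0) :
    𝔫 ^ n ≤ I ⊔ (MvPolynomial.idealOfVars σ 𝒪 ^ n).map (aev 𝒪 z) := by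
  rw [Ideal.map_pow, map_idealOfVars]
  exact (Ideal.pow_right_mono (H.gen I hI) n).trans (sup_pow_le_sup _ _ n hn)

theorem Hyp.exists_algebraMap_sub_mem (H : Hyp (𝒪 := 𝒪) 𝔫 ℱ z) (p : P) :
    ∃ c : 𝒪, p - algebraMap 𝒪 P c ∈ 𝔫 := by
  obtain ⟨c, hc⟩ := H.surj (Ideal.Quotient.mk 𝔫 p)
  refine ⟨c, ?_⟩
  rw [← Ideal.Quotient.eq]
  exact hc.symm

theorem Hyp.exists_aev_sub_mem (H : Hyp (𝒪 := 𝒪) 𝔫 ℱ z) {I : Ideal P} (hI : I ∈ ℱ) :
    ∀ j : ℕ, j ≠ 0 → ∀ p : P, ∃ q : MvPolynomial σ 𝒪, p - aev 𝒪 z q ∈ I ⊔ 𝔫 ^ j := by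
  intro j hj
  induction j with
  | zero => exact absurd rfl hj
  | succ j ih =>
    rcases Nat.eq_zero_or_pos j with rfl | hpos
    · intro p
      obtain ⟨c, hc⟩ := H.exists_algebraMap_sub_mem p
      refine ⟨MvPolynomial.C c, ?_⟩
      have : aev 𝒪 z (MvPolynomial.C c) = algebraMap 𝒪 P c := by simp [aev]
      rw [this, zero_add, pow_one]
      exact Ideal.mem_sup_right hc
    · intro p
      obtain ⟨q, hq⟩ := ih hpos.ne' p
      have hq' : p - aev 𝒪 z q ∈ I ⊔ (MvPolynomial.idealOfVars σ 𝒪 ^ j).map (aev 𝒪 z) := by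
        have h1 : I ⊔ 𝔫 ^ j ≤ I ⊔ (MvPolynomial.idealOfVars σ 𝒪 ^ j).map (aev 𝒪 z) :=
          sup_le le_sup_left (H.pow_le_sup hI j hpos.ne')
        exact h1 hq
      obtain ⟨i, hi, u, hu, hiu⟩ := Submodule.mem_sup.mp hq'
      have key : ∀ u ∈ (MvPolynomial.idealOfVars σ 𝒪 ^ j).map (aev 𝒪 z),
          ∀ p' : P, ∃ q' : MvPolynomial σ 𝒪, p' * u - aev 𝒪 z q' ∈ 𝔫 ^ (j + 1) := by
        intro u hu
        refine Submodule.span_induction (p := fun u _ => ∀ p' : P, ∃ q' : MvPolynomial σ 𝒪,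
          p' * u - aev 𝒪 z q' ∈ 𝔫 ^ (j + 1)) ?_ ?_ ?_ ?_ hu
        · rintro _ ⟨v, hv, rfl⟩ p'
          obtain ⟨c, hc⟩ := H.exists_algebraMap_sub_mem p'
          refine ⟨MvPolynomial.C c * v, ?_⟩
          have h1 : aev 𝒪 z (MvPolynomial.C c * v) = algebraMap 𝒪 P c * aev 𝒪 z v := by
            simp [aev]
          have h2 : p' * aev 𝒪 z v - aev 𝒪 z (MvPolynomial.C c * v)
              = (p' - algebraMap 𝒪 P c) * aev 𝒪 z v := by rw [h1]; ring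
          have h3 : aev 𝒪 z v ∈ 𝔫 ^ j :=
            H.map_idealOfVars_pow_le j (Ideal.mem_map_of_mem _ hv)
          show p' * (aev 𝒪 z : MvPolynomial σ 𝒪 →+* P) v - _ ∈ _
          rw [show (aev 𝒪 z : MvPolynomial σ 𝒪 →+* P) v = aev 𝒪 z v from rfl, h2, pow_succ']
          exact Ideal.mul_mem_mul hc h3
        · intro p'
          exact ⟨0, by simp⟩
        · intro x y _ _ hx hy p'
          obtain ⟨q1, h1⟩ := hx p'
          obtain ⟨q2, h2⟩ := hy p'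
          refine ⟨q1 + q2, ?_⟩
          have : p' * (x + y) - aev 𝒪 z (q1 + q2)
              = (p' * x - aev 𝒪 z q1) + (p' * y - aev 𝒪 z q2) := by rw [map_add]; ring
          rw [this]; exact Ideal.add_mem _ h1 h2
        · intro a x _ hx p'
          obtain ⟨q1, h1⟩ := hx (p' * a)
          refine ⟨q1, ?_⟩
          have : p' * (a • x) - aev 𝒪 z q1 = p' * a * x - aev 𝒪 z q1 := by
            rw [smul_eq_mul]; ring
          rw [this]; exact h1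
      obtain ⟨q', hq'⟩ := key u hu 1
      refine ⟨q + q', ?_⟩
      have : p - aev 𝒪 z (q + q') = i + (1 * u - aev 𝒪 z q') := by
        rw [map_add, ← sub_sub, ← hiu]; ring
      rw [this]
      exact Ideal.add_mem _ (Ideal.mem_sup_left hi) (Ideal.mem_sup_right hq')

theorem Hyp.surj_aev (H : Hyp (𝒪 := 𝒪) 𝔫 ℱ z) {I : Ideal P} (hI : I ∈ ℱ) :
    Function.Surjective ((Ideal.Quotient.mk I).comp (aev 𝒪 z : MvPolynomial σ 𝒪 →+* P)) := by
  intro x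
  obtain ⟨p, rfl⟩ := Ideal.Quotient.mk_surjective x
  obtain ⟨n, hn⟩ := H.pow_le I hI
  obtain ⟨q, hq⟩ := H.exists_aev_sub_mem hI (n + 1) (Nat.succ_ne_zero n) p
  refine ⟨q, ?_⟩
  have h1 : I ⊔ 𝔫 ^ (n + 1) ≤ I :=
    sup_le le_rfl ((Ideal.pow_le_pow_right (Nat.le_succ n)).trans hn)
  have h2 := h1 hq
  rw [RingHom.comp_apply]
  exact (Ideal.Quotient.eq.mpr h2).symm

theorem Hyp.card_le (H : Hyp (𝒪 := 𝒪) 𝔫 ℱ z) [Finite σ] [IsNoetherianRing 𝒪] (n : ℕ) :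
    ∃ c : ℕ, ∀ I ∈ ℱ, 𝔫 ^ (n + 1) ≤ I → Nat.card (P ⧸ I) ≤ c := by
  classical
  set f : MvPolynomial σ 𝒪 →+* P ⧸ 𝔫 :=
    (Ideal.Quotient.mk 𝔫).comp (aev 𝒪 z : MvPolynomial σ 𝒪 →+* P) with hf
  set 𝔪' : Ideal (MvPolynomial σ 𝒪) := RingHom.ker f with h𝔪'
  haveI : Finite (P ⧸ 𝔫) := H.fin 𝔫 H.top
  haveI : Finite (MvPolynomial σ 𝒪 ⧸ 𝔪') := Finite.of_injective _ (RingHom.kerLift_injective f)
  have hfg : 𝔪'.FG := IsNoetherian.noetherian 𝔪'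
  haveI : Finite (MvPolynomial σ 𝒪 ⧸ 𝔪' ^ (n + 1)) := Ideal.finite_quotient_pow hfg (n + 1)
  refine ⟨Nat.card (MvPolynomial σ 𝒪 ⧸ 𝔪' ^ (n + 1)), fun I hI hnI => ?_⟩
  have hmap : 𝔪'.map (aev 𝒪 z : MvPolynomial σ 𝒪 →+* P) ≤ 𝔫 := by
    rw [Ideal.map_le_iff_le_comap]
    intro a ha
    rw [h𝔪', RingHom.mem_ker, hf, RingHom.comp_apply, Ideal.Quotient.eq_zero_iff_mem] at ha
    exact ha
  have hkill : ∀ a ∈ 𝔪' ^ (n + 1),
      ((Ideal.Quotient.mk I).comp (aev 𝒪 z : MvPolynomial σ 𝒪 →+* P)) a = 0 := by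
    intro a ha
    rw [RingHom.comp_apply, Ideal.Quotient.eq_zero_iff_mem]
    apply hnI
    have h1 : (aev 𝒪 z : MvPolynomial σ 𝒪 →+* P) a ∈
        (𝔪' ^ (n + 1)).map (aev 𝒪 z : MvPolynomial σ 𝒪 →+* P) := Ideal.mem_map_of_mem _ ha
    rw [Ideal.map_pow] at h1
    exact Ideal.pow_right_mono hmap (n + 1) h1
  have hsurj : Function.Surjective (Ideal.Quotient.lift (𝔪' ^ (n + 1)) _ hkill) :=
    Ideal.Quotient.lift_surjective_of_surjective _ hkill (H.surj_aev hI)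
  exact Nat.card_le_card_of_surjective _ hsurj

theorem Hyp.exists_min (H : Hyp (𝒪 := 𝒪) 𝔫 ℱ z) [Finite σ] [IsNoetherianRing 𝒪] (n : ℕ) :
    ∃ I ∈ ℱ, 𝔫 ^ (n + 1) ≤ I ∧ ∀ J ∈ ℱ, 𝔫 ^ (n + 1) ≤ J → I ≤ J := by
  classical
  obtain ⟨c, hc⟩ := H.card_le n
  set S : Set ℕ := {m | ∃ I ∈ ℱ, 𝔫 ^ (n + 1) ≤ I ∧ Nat.card (P ⧸ I) = m} with hS
  have hne : S.Nonempty :=
    ⟨_, 𝔫, H.top, Ideal.pow_le_self (Nat.succ_ne_zero n), rfl⟩
  have hbdd : BddAbove S := ⟨c, by rintro m ⟨I, hI, hnI, rfl⟩; exact hc I hI hnI⟩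
  obtain ⟨I, hI, hnI, hcard⟩ := Nat.sSup_mem hne hbdd
  refine ⟨I, hI, hnI, fun J hJ hnJ => ?_⟩
  have hIJ : I ⊓ J ∈ ℱ := H.inf I hI J hJ
  have hnIJ : 𝔫 ^ (n + 1) ≤ I ⊓ J := le_inf hnI hnJ
  have h1 : Nat.card (P ⧸ I ⊓ J) ≤ Nat.card (P ⧸ I) := by
    rw [hcard]
    exact le_csSup hbdd ⟨I ⊓ J, hIJ, hnIJ, rfl⟩
  haveI : Finite (P ⧸ I ⊓ J) := H.fin _ hIJ
  have hsurj : Function.Surjective (Ideal.Quotient.factor (inf_le_left : I ⊓ J ≤ I)) :=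
    Ideal.Quotient.factor_surjective _
  have hbij := hsurj.bijective_of_nat_card_le h1
  intro x hx
  have h2 : Ideal.Quotient.factor (inf_le_left : I ⊓ J ≤ I) (Ideal.Quotient.mk _ x) =
      Ideal.Quotient.factor (inf_le_left : I ⊓ J ≤ I) 0 := by
    rw [Ideal.Quotient.factor_mk, map_zero]
    exact Ideal.Quotient.eq_zero_iff_mem.mpr hx
  have h3 := hbij.1 h2
  rw [Ideal.Quotient.eq_zero_iff_mem] at h3
  exact h3.2

/-- the minimal member of `ℱ` containing `𝔫 ^ (n+1)` -/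
noncomputable def Hyp.Imin (H : Hyp (𝒪 := 𝒪) 𝔫 ℱ z) [Finite σ] [IsNoetherianRing 𝒪] (n : ℕ) :
    Ideal P := Classical.choose (H.exists_min n)

section Imin

variable [Finite σ] [IsNoetherianRing 𝒪] (H : Hyp (𝒪 := 𝒪) 𝔫 ℱ z)

theorem Hyp.Imin_mem (n : ℕ) : H.Imin n ∈ ℱ := (Classical.choose_spec (H.exists_min n)).1

theorem Hyp.pow_le_Imin (n : ℕ) : 𝔫 ^ (n + 1) ≤ H.Imin n :=
  (Classical.choose_spec (H.exists_min n)).2.1

theorem Hyp.Imin_le (n : ℕ) {J : Ideal P} (hJ : J ∈ ℱ) (hnJ : 𝔫 ^ (n + 1) ≤ J) : H.Imin n ≤ J :=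
  (Classical.choose_spec (H.exists_min n)).2.2 J hJ hnJ

theorem Hyp.Imin_le_n (n : ℕ) : H.Imin n ≤ 𝔫 := H.le _ (H.Imin_mem n)

theorem Hyp.Imin_succ_le (n : ℕ) : H.Imin (n + 1) ≤ H.Imin n :=
  H.Imin_le (n + 1) (H.Imin_mem n)
    ((Ideal.pow_le_pow_right (Nat.le_succ (n + 1))).trans (H.pow_le_Imin n))

theorem Hyp.Imin_anti {m n : ℕ} (hmn : m ≤ n) : H.Imin n ≤ H.Imin m := by
  induction n, hmn using Nat.le_induction with
  | base => exact le_rfl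
  | succ n _ ih => exact (H.Imin_succ_le n).trans ih

theorem Hyp.Imin_le_sup (n : ℕ) : H.Imin n ≤ H.Imin (n + 1) ⊔ 𝔫 ^ (n + 1) :=
  H.Imin_le n (H.up _ (H.Imin_mem (n + 1)) _ le_sup_left
    (sup_le (H.Imin_le_n (n + 1)) (Ideal.pow_le_self (Nat.succ_ne_zero n)))) le_sup_right

theorem Hyp.Imin_zero : H.Imin 0 = 𝔫 :=
  le_antisymm (H.Imin_le_n 0) (by have := H.pow_le_Imin 0; rwa [zero_add, pow_one] at this)

end Imin

section Theta

variable [Finite σ] [IsNoetherianRing 𝒪] (H : Hyp (𝒪 := 𝒪) 𝔫 ℱ z)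

/-- the polynomial-level map `𝒪[σ] → P ⧸ Imin n` -/
noncomputable def Hyp.polyMap (n : ℕ) : MvPolynomial σ 𝒪 →ₐ[𝒪] P ⧸ H.Imin n :=
  (Ideal.Quotient.mkₐ 𝒪 (H.Imin n)).comp (aev 𝒪 z)

theorem Hyp.polyMap_apply (n : ℕ) (a : MvPolynomial σ 𝒪) :
    H.polyMap n a = Ideal.Quotient.mk (H.Imin n) (aev 𝒪 z a) := rfl

theorem Hyp.polyMap_kill (n m : ℕ) (hnm : n + 1 ≤ m) :
    ∀ a ∈ MvPolynomial.idealOfVars σ 𝒪 ^ m, H.polyMap n a = 0 := by
  intro a ha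
  rw [H.polyMap_apply, Ideal.Quotient.eq_zero_iff_mem]
  apply H.pow_le_Imin n
  apply Ideal.pow_le_pow_right hnm
  exact H.map_idealOfVars_pow_le m (Ideal.mem_map_of_mem _ ha)

/-- the map from the power series ring to `P ⧸ Imin n` -/
noncomputable def Hyp.θ (n : ℕ) : MvPowerSeries σ 𝒪 →ₐ[𝒪] P ⧸ H.Imin n :=
  (Ideal.Quotient.liftₐ (MvPolynomial.idealOfVars σ 𝒪 ^ (n + 1)) (H.polyMap n)
    (H.polyMap_kill n (n + 1) le_rfl)).comp
    ((MvPowerSeries.truncTotalAlgHom σ 𝒪 (n + 1)).restrictScalars 𝒪)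

theorem Hyp.θ_apply (n : ℕ) (f : MvPowerSeries σ 𝒪) :
    H.θ n f = Ideal.Quotient.mk (H.Imin n) (aev 𝒪 z (MvPowerSeries.truncTotal (n + 1) f)) := rfl

theorem Hyp.θ_apply_of_le (n m : ℕ) (hnm : n + 1 ≤ m) (f : MvPowerSeries σ 𝒪) :
    H.θ n f = Ideal.Quotient.mk (H.Imin n) (aev 𝒪 z (MvPowerSeries.truncTotal m f)) := by
  rw [H.θ_apply, Ideal.Quotient.eq, ← map_sub]
  have h1 := MvPowerSeries.truncTotal_sub_truncTotal_mem_pow_idealOfVars (σ := σ) (R := 𝒪)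
    (l := n + 1) (m := n + 1) (n := m) le_rfl hnm f
  have h2 := H.polyMap_kill n (n + 1) le_rfl _ h1
  rwa [H.polyMap_apply, Ideal.Quotient.eq_zero_iff_mem] at h2

theorem Hyp.θ_coe (n : ℕ) (p : MvPolynomial σ 𝒪) :
    H.θ n (p : MvPowerSeries σ 𝒪) = Ideal.Quotient.mk (H.Imin n) (aev 𝒪 z p) := by
  have h1 : (MvPowerSeries.truncTotalAlgHom σ 𝒪 (n + 1))
      (algebraMap (MvPolynomial σ 𝒪) (MvPowerSeries σ 𝒪) p) =
      algebraMap (MvPolynomial σ 𝒪) _ p := AlgHom.commutes _ p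
  have h2 : algebraMap (MvPolynomial σ 𝒪) (MvPowerSeries σ 𝒪) p = (p : MvPowerSeries σ 𝒪) := by
    rw [MvPowerSeries.algebraMap_apply']
    simp
  rw [h2] at h1
  show (Ideal.Quotient.liftₐ (MvPolynomial.idealOfVars σ 𝒪 ^ (n + 1)) (H.polyMap n)
    (H.polyMap_kill n (n + 1) le_rfl))
    ((MvPowerSeries.truncTotalAlgHom σ 𝒪 (n + 1)) (p : MvPowerSeries σ 𝒪)) = _
  rw [h1]
  rfl

theorem Hyp.θ_X (n : ℕ) (i : σ) :
    H.θ n (MvPowerSeries.X i) = Ideal.Quotient.mk (H.Imin n) (z i) := by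
  rw [← MvPolynomial.coe_X, H.θ_coe]
  simp [aev]

theorem Hyp.θ_surjective (n : ℕ) : Function.Surjective (H.θ n) := by
  intro x
  obtain ⟨q, hq⟩ := H.surj_aev (H.Imin_mem n) x
  exact ⟨(q : MvPowerSeries σ 𝒪), by rw [H.θ_coe]; exact hq⟩

theorem Hyp.factor_θ (n : ℕ) (f : MvPowerSeries σ 𝒪) :
    Ideal.Quotient.factor (H.Imin_succ_le n) (H.θ (n + 1) f) = H.θ n f := by
  rw [H.θ_apply (n + 1), Ideal.Quotient.factor_mk, H.θ_apply_of_le n (n + 1 + 1) (Nat.le_succ _)]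

theorem Hyp.factor_θ_of_le {m n : ℕ} (hmn : m ≤ n) (f : MvPowerSeries σ 𝒪) :
    Ideal.Quotient.factor (H.Imin_anti hmn) (H.θ n f) = H.θ m f := by
  rw [H.θ_apply n, Ideal.Quotient.factor_mk, H.θ_apply_of_le m (n + 1) (Nat.succ_le_succ hmn)]

/-- the ideal of variables in the power series ring -/
noncomputable def vIdeal (σ 𝒪 : Type) [CommRing 𝒪] : Ideal (MvPowerSeries σ 𝒪) :=
  Ideal.span (Set.range MvPowerSeries.X)

theorem Hyp.map_vIdeal (n : ℕ) :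
    (vIdeal σ 𝒪).map (H.θ n) = (Ideal.span (Set.range z)).map (Ideal.Quotient.mk (H.Imin n)) := by
  rw [vIdeal, Ideal.map_span, Ideal.map_span, ← Set.range_comp, ← Set.range_comp]
  congr 2
  ext i
  simp [H.θ_X]

theorem Hyp.vIdeal_pow_le_ker (n : ℕ) : vIdeal σ 𝒪 ^ (n + 1) ≤ RingHom.ker (H.θ n) := by
  have h1 : (vIdeal σ 𝒪 ^ (n + 1)).map (H.θ n) = ⊥ := by
    rw [Ideal.map_pow, H.map_vIdeal, ← Ideal.map_pow, eq_bot_iff]
    rw [Ideal.map_le_iff_le_comap]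
    intro x hx
    rw [Ideal.mem_comap, Ideal.mem_bot, Ideal.Quotient.eq_zero_iff_mem]
    exact H.pow_le_Imin n (Ideal.pow_right_mono H.span_le (n + 1) hx)
  intro x hx
  rw [RingHom.mem_ker]
  have h2 : H.θ n x ∈ (vIdeal σ 𝒪 ^ (n + 1)).map (H.θ n) := Ideal.mem_map_of_mem _ hx
  rwa [h1, Ideal.mem_bot] at h2

theorem Hyp.ker_anti (n : ℕ) : RingHom.ker (H.θ (n + 1)) ≤ RingHom.ker (H.θ n) := by
  intro x hx
  rw [RingHom.mem_ker] at hx ⊢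
  rw [← H.factor_θ, hx, map_zero]

theorem Hyp.ker_le_sup (n : ℕ) :
    RingHom.ker (H.θ n) ≤ RingHom.ker (H.θ (n + 1)) ⊔ vIdeal σ 𝒪 ^ (n + 1) := by
  intro x hx
  rw [RingHom.mem_ker] at hx
  obtain ⟨w, hw⟩ := Ideal.Quotient.mk_surjective (H.θ (n + 1) x)
  have hw' : w ∈ H.Imin n := by
    have h := H.factor_θ n x
    rw [← hw, Ideal.Quotient.factor_mk, hx] at h
    exact Ideal.Quotient.eq_zero_iff_mem.mp h
  have hw2 : w ∈ H.Imin (n + 1) ⊔ (Ideal.span (Set.range z)) ^ (n + 1) := by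
    have h1 := H.Imin_le_sup n hw'
    have h2 : H.Imin (n + 1) ⊔ 𝔫 ^ (n + 1) ≤
        H.Imin (n + 1) ⊔ (Ideal.span (Set.range z)) ^ (n + 1) := by
      refine sup_le le_sup_left ?_
      have := H.pow_le_sup (H.Imin_mem (n + 1)) (n + 1) (Nat.succ_ne_zero n)
      rwa [Ideal.map_pow, map_idealOfVars] at this
    exact h2 h1
  obtain ⟨i, hi, u, hu, hiu⟩ := Submodule.mem_sup.mp hw2
  have hmem : H.θ (n + 1) x ∈ (vIdeal σ 𝒪 ^ (n + 1)).map (H.θ (n + 1)) := by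
    rw [Ideal.map_pow, H.map_vIdeal, ← Ideal.map_pow, ← hw, ← hiu, map_add,
      Ideal.Quotient.eq_zero_iff_mem.mpr hi, zero_add]
    exact Ideal.mem_map_of_mem _ hu
  obtain ⟨v, hv, hvx⟩ := (Ideal.mem_map_iff_of_surjective (H.θ (n + 1))
    (H.θ_surjective (n + 1))).mp hmem
  have : x = (x - v) + v := by ring
  rw [this]
  refine Ideal.add_mem _ (Ideal.mem_sup_left ?_) (Ideal.mem_sup_right hv)
  rw [RingHom.mem_ker, map_sub, hvx, sub_self]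

end Theta

section Ring

variable [Finite σ] [IsNoetherianRing 𝒪] (H : Hyp (𝒪 := 𝒪) 𝔫 ℱ z)

instance vIdeal_isAdicComplete : IsAdicComplete (vIdeal σ 𝒪) (MvPowerSeries σ 𝒪) := by
  unfold vIdeal; infer_instance

/-- the kernel ideal -/
noncomputable def Hyp.J : Ideal (MvPowerSeries σ 𝒪) := ⨅ n, RingHom.ker (H.θ n)

theorem Hyp.J_le_ker (n : ℕ) : H.J ≤ RingHom.ker (H.θ n) := iInf_le _ n

theorem Hyp.ker_anti_of_le {m n : ℕ} (hmn : m ≤ n) :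
    RingHom.ker (H.θ n) ≤ RingHom.ker (H.θ m) := by
  induction n, hmn using Nat.le_induction with
  | base => exact le_rfl
  | succ n _ ih => exact (H.ker_anti n).trans ih

theorem Hyp.exists_lift (r : ∀ n, P ⧸ H.Imin n)
    (hr : ∀ n, Ideal.Quotient.factor (H.Imin_succ_le n) (r (n + 1)) = r n) :
    ∃ f : MvPowerSeries σ 𝒪, ∀ n, H.θ n f = r n := by
  choose f hf using fun n => H.θ_surjective n (r n)
  obtain ⟨L, hL, -⟩ := approx (vIdeal σ 𝒪) (fun n => RingHom.ker (H.θ n)) (fun n => n + 1)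
    (fun n => Nat.le_succ n) (fun a b hab => Nat.succ_le_succ hab)
    (fun n => H.vIdeal_pow_le_ker n) (fun n => H.ker_le_sup n) f
    (by
      intro n
      rw [RingHom.mem_ker, map_sub, hf n, ← H.factor_θ n, hf (n + 1), hr n, sub_self])
  refine ⟨L, fun n => ?_⟩
  have := hL n
  rw [RingHom.mem_ker, map_sub, sub_eq_zero] at this
  rw [this, hf n]

theorem Hyp.ker_le_J_sup (n : ℕ) :
    RingHom.ker (H.θ n) ≤ H.J ⊔ vIdeal σ 𝒪 ^ (n + 1) := by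
  intro x hx
  obtain ⟨L, hL, hL0⟩ := approx (vIdeal σ 𝒪) (fun j => RingHom.ker (H.θ (n + j)))
    (fun j => n + j + 1) (fun j => by omega) (fun a b hab => by simp only; omega)
    (fun j => H.vIdeal_pow_le_ker (n + j)) (fun j => H.ker_le_sup (n + j))
    (fun j => if j = 0 then 0 else x)
    (by
      intro j
      rcases Nat.eq_zero_or_pos j with rfl | hj
      · simpa using hx
      · have h1 : j ≠ 0 := hj.ne'
        simp [h1])
  have hL0' : L ∈ vIdeal σ 𝒪 ^ (n + 1) := by simpa using hL0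
  have hLx : x - L ∈ H.J := by
    rw [Hyp.J, Ideal.mem_iInf]
    intro m
    have h1 := hL (m + 1)
    simp only [Nat.succ_ne_zero, if_false] at h1
    have h2 : L - x ∈ RingHom.ker (H.θ m) := H.ker_anti_of_le (by omega) h1
    have h3 : x - L = -(L - x) := by ring
    rw [h3]; exact Ideal.neg_mem_iff _ |>.mpr h2
  have : x = (x - L) + L := by ring
  rw [this]
  exact Ideal.add_mem _ (Ideal.mem_sup_left hLx) (Ideal.mem_sup_right hL0')

/-- the pro-representing ring -/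
abbrev Hyp.R : Type := MvPowerSeries σ 𝒪 ⧸ H.J

/-- the projection of the pro-representing ring to its `n`-th layer -/
noncomputable def Hyp.θbar (n : ℕ) : H.R →ₐ[𝒪] P ⧸ H.Imin n :=
  Ideal.Quotient.liftₐ H.J (H.θ n) (fun a ha => RingHom.mem_ker.mp (H.J_le_ker n ha))

theorem Hyp.θbar_mk (n : ℕ) (f : MvPowerSeries σ 𝒪) :
    H.θbar n (Ideal.Quotient.mk H.J f) = H.θ n f := rfl

theorem Hyp.θbar_surjective (n : ℕ) : Function.Surjective (H.θbar n) := by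
  intro x
  obtain ⟨f, hf⟩ := H.θ_surjective n x
  exact ⟨Ideal.Quotient.mk H.J f, hf⟩

theorem Hyp.factor_θbar {m n : ℕ} (hmn : m ≤ n) (r : H.R) :
    Ideal.Quotient.factor (H.Imin_anti hmn) (H.θbar n r) = H.θbar m r := by
  obtain ⟨f, rfl⟩ := Ideal.Quotient.mk_surjective r
  rw [H.θbar_mk, H.θbar_mk, H.factor_θ_of_le hmn]

theorem Hyp.ext_θbar {r r' : H.R} (h : ∀ n, H.θbar n r = H.θbar n r') : r = r' := by
  obtain ⟨f, rfl⟩ := Ideal.Quotient.mk_surjective r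
  obtain ⟨f', rfl⟩ := Ideal.Quotient.mk_surjective r'
  rw [Ideal.Quotient.eq, Hyp.J, Ideal.mem_iInf]
  intro n
  have := h n
  rw [H.θbar_mk, H.θbar_mk] at this
  rw [RingHom.mem_ker, map_sub, this, sub_self]

theorem Hyp.exists_ι (p : P) : ∃ r : H.R, ∀ n, H.θbar n r = Ideal.Quotient.mk (H.Imin n) p := by
  obtain ⟨f, hf⟩ := H.exists_lift (fun n => Ideal.Quotient.mk (H.Imin n) p) (fun n => by simp)
  exact ⟨Ideal.Quotient.mk H.J f, fun n => hf n⟩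

/-- the canonical map `P → R` as a function -/
noncomputable def Hyp.ιfun (p : P) : H.R := Classical.choose (H.exists_ι p)

theorem Hyp.θbar_ιfun (n : ℕ) (p : P) :
    H.θbar n (H.ιfun p) = Ideal.Quotient.mk (H.Imin n) p :=
  Classical.choose_spec (H.exists_ι p) n

/-- the canonical map `P → R` -/
noncomputable def Hyp.ι : P →ₐ[𝒪] H.R where
  toFun := H.ιfun
  map_one' := H.ext_θbar fun n => by rw [H.θbar_ιfun, map_one, map_one]
  map_mul' a b := H.ext_θbar fun n => by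
    rw [H.θbar_ιfun, map_mul, map_mul, H.θbar_ιfun, H.θbar_ιfun]
  map_zero' := H.ext_θbar fun n => by rw [H.θbar_ιfun, map_zero, map_zero]
  map_add' a b := H.ext_θbar fun n => by
    rw [H.θbar_ιfun, map_add, map_add, H.θbar_ιfun, H.θbar_ιfun]
  commutes' c := H.ext_θbar fun n => by
    rw [H.θbar_ιfun, AlgHom.commutes]
    rfl

theorem Hyp.θbar_ι (n : ℕ) (p : P) :
    H.θbar n (H.ι p) = Ideal.Quotient.mk (H.Imin n) p := H.θbar_ιfun n p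

end Ring

section Structure

variable [Finite σ] [IsNoetherianRing 𝒪] [IsLocalRing 𝒪] (H : Hyp (𝒪 := 𝒪) 𝔫 ℱ z)

theorem Hyp.J_ne_top : H.J ≠ ⊤ := by
  intro h
  have h1 : (1 : MvPowerSeries σ 𝒪) ∈ RingHom.ker (H.θ 0) := H.J_le_ker 0 (h ▸ Submodule.mem_top)
  rw [RingHom.mem_ker, map_one] at h1
  have h2 : (1 : P) ∈ H.Imin 0 := by
    rw [← Ideal.Quotient.eq_zero_iff_mem, map_one]; exact h1
  exact H.max.ne_top ((Ideal.eq_top_iff_one _).mpr (H.Imin_le_n 0 h2))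

instance Hyp.nontrivial_R : Nontrivial H.R := Ideal.Quotient.nontrivial_iff.mpr H.J_ne_top

instance Hyp.isLocalRing_R : IsLocalRing H.R :=
  IsLocalRing.of_surjective' (Ideal.Quotient.mk H.J) Ideal.Quotient.mk_surjective

theorem Hyp.ker_θbar (n : ℕ) :
    RingHom.ker (H.θbar n) = (vIdeal σ 𝒪 ^ (n + 1)).map (Ideal.Quotient.mk H.J) := by
  apply le_antisymm
  · intro r hr
    obtain ⟨f, rfl⟩ := Ideal.Quotient.mk_surjective r
    rw [RingHom.mem_ker, H.θbar_mk] at hr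
    have hf : f ∈ H.J ⊔ vIdeal σ 𝒪 ^ (n + 1) := H.ker_le_J_sup n (RingHom.mem_ker.mpr hr)
    obtain ⟨j, hj, v, hv, rfl⟩ := Submodule.mem_sup.mp hf
    rw [map_add, Ideal.Quotient.eq_zero_iff_mem.mpr hj, zero_add]
    exact Ideal.mem_map_of_mem _ hv
  · rw [Ideal.map_le_iff_le_comap]
    intro v hv
    rw [Ideal.mem_comap, RingHom.mem_ker, H.θbar_mk]
    exact RingHom.mem_ker.mp (H.vIdeal_pow_le_ker n hv)

theorem Hyp.algebraMap_mem (H : Hyp (𝒪 := 𝒪) 𝔫 ℱ z) {c : 𝒪} (hc : c ∈ maximalIdeal 𝒪) :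
    algebraMap 𝒪 P c ∈ 𝔫 := by
  haveI := H.max
  letI := Ideal.Quotient.field 𝔫
  have hmax : (RingHom.ker ((Ideal.Quotient.mk 𝔫).comp (algebraMap 𝒪 P))).IsMaximal :=
    RingHom.ker_isMaximal_of_surjective _ H.surj
  have h := IsLocalRing.eq_maximalIdeal hmax
  rw [← h, RingHom.mem_ker, RingHom.comp_apply, Ideal.Quotient.eq_zero_iff_mem] at hc
  exact hc

theorem Hyp.ker_θbar_zero_eq : RingHom.ker (H.θbar 0) = maximalIdeal H.R := by
  haveI : (H.Imin 0).IsMaximal := H.Imin_zero.symm ▸ H.max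
  letI := Ideal.Quotient.field (H.Imin 0)
  have hmax : (RingHom.ker (H.θbar 0)).IsMaximal :=
    RingHom.ker_isMaximal_of_surjective _ (H.θbar_surjective 0)
  exact IsLocalRing.eq_maximalIdeal hmax

theorem Hyp.maximalIdeal_eq :
    maximalIdeal H.R = (vIdeal σ 𝒪).map (Ideal.Quotient.mk H.J) := by
  rw [← H.ker_θbar_zero_eq, H.ker_θbar 0, zero_add, pow_one]

theorem Hyp.maximalIdeal_pow (n : ℕ) :
    maximalIdeal H.R ^ (n + 1) = RingHom.ker (H.θbar n) := by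
  rw [H.maximalIdeal_eq, ← Ideal.map_pow, H.ker_θbar]

instance Hyp.isAdicComplete_R : IsAdicComplete (maximalIdeal H.R) H.R := by
  have h1 : IsAdicComplete (vIdeal σ 𝒪) H.R := IsAdicComplete.of_module_finite (vIdeal σ 𝒪) H.R
  have h2 := (IsAdicComplete.map_algebraMap_iff (vIdeal σ 𝒪) H.R (S := H.R)).mpr h1
  rw [H.maximalIdeal_eq]
  exact h2

instance Hyp.isLocalHom_algebraMap : IsLocalHom (algebraMap 𝒪 H.R) := by
  constructor
  intro c hc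
  by_contra hnot
  have hc' : c ∈ maximalIdeal 𝒪 := (IsLocalRing.mem_maximalIdeal c).mpr hnot
  have h1 : algebraMap 𝒪 H.R c ∈ maximalIdeal H.R := by
    rw [← H.ker_θbar_zero_eq, RingHom.mem_ker, AlgHom.commutes]
    have : algebraMap 𝒪 (P ⧸ H.Imin 0) c = Ideal.Quotient.mk (H.Imin 0) (algebraMap 𝒪 P c) := rfl
    rw [this, Ideal.Quotient.eq_zero_iff_mem, H.Imin_zero]
    exact H.algebraMap_mem hc'
  exact (IsLocalRing.mem_maximalIdeal _).mp h1 hc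

theorem Hyp.residue_surjective :
    Function.Surjective (IsLocalRing.residue H.R ∘ algebraMap 𝒪 H.R) := by
  intro y
  obtain ⟨r, rfl⟩ := IsLocalRing.residue_surjective y
  obtain ⟨p, hp⟩ := Ideal.Quotient.mk_surjective (H.θbar 0 r)
  obtain ⟨c, hc⟩ := H.exists_algebraMap_sub_mem p
  refine ⟨c, ?_⟩
  have h1 : r - algebraMap 𝒪 H.R c ∈ maximalIdeal H.R := by
    rw [← H.ker_θbar_zero_eq, RingHom.mem_ker, map_sub, AlgHom.commutes, ← hp]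
    have : algebraMap 𝒪 (P ⧸ H.Imin 0) c = Ideal.Quotient.mk (H.Imin 0) (algebraMap 𝒪 P c) := rfl
    rw [this, ← map_sub, Ideal.Quotient.eq_zero_iff_mem, H.Imin_zero]
    exact hc
  have h2 := (IsLocalRing.residue_eq_zero_iff _).mpr h1
  rw [map_sub, sub_eq_zero] at h2
  exact h2.symm

theorem Hyp.ker_mk_comp_ι (n : ℕ) :
    RingHom.ker ((Ideal.Quotient.mk (maximalIdeal H.R ^ (n + 1))).comp (H.ι : P →+* H.R))
      = H.Imin n := by
  ext p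
  rw [RingHom.mem_ker, RingHom.comp_apply, Ideal.Quotient.eq_zero_iff_mem, H.maximalIdeal_pow,
    RingHom.mem_ker]
  show H.θbar n (H.ι p) = 0 ↔ _
  rw [H.θbar_ι, Ideal.Quotient.eq_zero_iff_mem]

theorem Hyp.exists_ι_sub_mem (n : ℕ) (r : H.R) :
    ∃ p : P, r - H.ι p ∈ maximalIdeal H.R ^ (n + 1) := by
  obtain ⟨p, hp⟩ := Ideal.Quotient.mk_surjective (H.θbar n r)
  refine ⟨p, ?_⟩
  rw [H.maximalIdeal_pow, RingHom.mem_ker, map_sub, H.θbar_ι, hp, sub_self]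

theorem Hyp.surj_mk_comp_ι (n : ℕ) :
    Function.Surjective
      ((Ideal.Quotient.mk (maximalIdeal H.R ^ (n + 1))).comp (H.ι : P →+* H.R)) := by
  intro y
  obtain ⟨r, rfl⟩ := Ideal.Quotient.mk_surjective y
  obtain ⟨p, hp⟩ := H.exists_ι_sub_mem n r
  exact ⟨p, (Ideal.Quotient.eq.mpr hp).symm⟩

theorem Hyp.exists_Imin_le {I : Ideal P} (hI : I ∈ ℱ) : ∃ n : ℕ, H.Imin n ≤ I := by
  obtain ⟨n, hn⟩ := H.pow_le I hI
  exact ⟨n, H.Imin_le n hI ((Ideal.pow_le_pow_right (Nat.le_succ n)).trans hn)⟩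

theorem Hyp.mk_X_eq_ι (i : σ) : Ideal.Quotient.mk H.J (MvPowerSeries.X i) = H.ι (z i) :=
  H.ext_θbar fun n => by rw [H.θbar_mk, H.θ_X, H.θbar_ι]

theorem Hyp.maximalIdeal_eq_span :
    maximalIdeal H.R = Ideal.span (Set.range fun i => H.ι (z i)) := by
  rw [H.maximalIdeal_eq, vIdeal, Ideal.map_span, ← Set.range_comp]
  congr 2
  ext i
  exact H.mk_X_eq_ι i

end Structure

section Universal

variable [Finite σ] [IsNoetherianRing 𝒪] [IsLocalRing 𝒪] (H : Hyp (𝒪 := 𝒪) 𝔫 ℱ z)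
variable {A : Type} [CommRing A] [IsLocalRing A] [Algebra 𝒪 A] (f : P →ₐ[𝒪] A)

/-- kernel of `P → A → A ⧸ m_A ^ (n+1)` -/
noncomputable def kerLevel (f : P →ₐ[𝒪] A) (n : ℕ) : Ideal P :=
  RingHom.ker ((Ideal.Quotient.mk (maximalIdeal A ^ (n + 1))).comp (f : P →+* A))

theorem mem_kerLevel (n : ℕ) (p : P) : p ∈ kerLevel f n ↔ f p ∈ maximalIdeal A ^ (n + 1) := by
  rw [kerLevel, RingHom.mem_ker, RingHom.comp_apply, Ideal.Quotient.eq_zero_iff_mem]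
  rfl

theorem Hyp.map_mem_maximalIdeal (H : Hyp (𝒪 := 𝒪) 𝔫 ℱ z) (hf : ∀ n : ℕ, kerLevel f n ∈ ℱ)
    {x : P} (hx : x ∈ 𝔫) : f x ∈ maximalIdeal A := by
  obtain ⟨N, hN⟩ := H.pow_le _ (hf 0)
  have h1 : x ^ N ∈ kerLevel f 0 := hN (Ideal.pow_mem_pow hx N)
  rw [mem_kerLevel, zero_add, pow_one, map_pow] at h1
  exact (IsLocalRing.maximalIdeal.isMaximal A).isPrime.mem_of_pow_mem N h1

theorem Hyp.map_pow_le (H : Hyp (𝒪 := 𝒪) 𝔫 ℱ z) (hf : ∀ n : ℕ, kerLevel f n ∈ ℱ) (m : ℕ) :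
    (𝔫 ^ m).map (f : P →+* A) ≤ maximalIdeal A ^ m := by
  rw [Ideal.map_pow]
  apply Ideal.pow_right_mono
  rw [Ideal.map_le_iff_le_comap]
  intro x hx
  exact H.map_mem_maximalIdeal f hf hx

theorem Hyp.Imin_le_kerLevel (hf : ∀ n : ℕ, kerLevel f n ∈ ℱ) (n : ℕ) :
    H.Imin n ≤ kerLevel f n := by
  apply H.Imin_le n (hf n)
  intro x hx
  rw [mem_kerLevel]
  exact H.map_pow_le f hf (n + 1) (Ideal.mem_map_of_mem _ hx)

/-- any algebra map out of `R` compatible with `f` sends the maximal ideal into the maximal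
ideal -/
theorem Hyp.map_maximalIdeal_le (hf : ∀ n : ℕ, kerLevel f n ∈ ℱ) (φ : H.R →ₐ[𝒪] A)
    (hφ : φ.comp H.ι = f) : (maximalIdeal H.R).map (φ : H.R →+* A) ≤ maximalIdeal A := by
  rw [H.maximalIdeal_eq_span, Ideal.map_span, Ideal.span_le]
  rintro _ ⟨_, ⟨i, rfl⟩, rfl⟩
  have : (φ : H.R →+* A) (H.ι (z i)) = f (z i) := by
    rw [← hφ]; rfl
  rw [this]
  exact H.map_mem_maximalIdeal f hf (H.hz i)

theorem Hyp.isLocalHom_of_comp (hf : ∀ n : ℕ, kerLevel f n ∈ ℱ) (φ : H.R →ₐ[𝒪] A)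
    (hφ : φ.comp H.ι = f) : IsLocalHom (φ : H.R →+* A) := by
  constructor
  intro r hr
  by_contra hnot
  have h1 : r ∈ maximalIdeal H.R := (IsLocalRing.mem_maximalIdeal r).mpr hnot
  have h2 : (φ : H.R →+* A) r ∈ maximalIdeal A :=
    H.map_maximalIdeal_le f hf φ hφ (Ideal.mem_map_of_mem _ h1)
  exact (IsLocalRing.mem_maximalIdeal _).mp h2 hr

/-- the level maps `P ⧸ Imin n → A ⧸ m_A ^ (n+1)` -/
noncomputable def Hyp.levelMap (hf : ∀ n : ℕ, kerLevel f n ∈ ℱ) (n : ℕ) :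
    P ⧸ H.Imin n →ₐ[𝒪] A ⧸ maximalIdeal A ^ (n + 1) :=
  Ideal.Quotient.liftₐ (H.Imin n) ((Ideal.Quotient.mkₐ 𝒪 (maximalIdeal A ^ (n + 1))).comp f)
    (fun a ha => by
      have := H.Imin_le_kerLevel f hf n ha
      rw [mem_kerLevel] at this
      exact Ideal.Quotient.eq_zero_iff_mem.mpr this)

/-- the compatible family `R → A ⧸ m_A ^ n` -/
noncomputable def Hyp.famMap (hf : ∀ n : ℕ, kerLevel f n ∈ ℱ) (n : ℕ) :
    H.R →ₐ[𝒪] A ⧸ maximalIdeal A ^ n :=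
  (Ideal.Quotient.factorₐ 𝒪 (Ideal.pow_le_pow_right (Nat.le_succ n))).comp
    ((H.levelMap f hf n).comp (H.θbar n))

theorem Hyp.famMap_apply (hf : ∀ n : ℕ, kerLevel f n ∈ ℱ) (n : ℕ) (r : H.R) (p : P)
    (hp : H.θbar n r = Ideal.Quotient.mk (H.Imin n) p) :
    H.famMap f hf n r = Ideal.Quotient.mk (maximalIdeal A ^ n) (f p) := by
  show (Ideal.Quotient.factorₐ 𝒪 (Ideal.pow_le_pow_right (Nat.le_succ n)))
    ((H.levelMap f hf n) (H.θbar n r)) = _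
  rw [hp]
  rfl

theorem Hyp.famMap_compat (hf : ∀ n : ℕ, kerLevel f n ∈ ℱ) {m n : ℕ} (hle : m ≤ n) :
    (Ideal.Quotient.factorₐ 𝒪 (Ideal.pow_le_pow_right (I := maximalIdeal A) hle)).comp
      (H.famMap f hf n) = H.famMap f hf m := by
  ext r
  obtain ⟨p, hp⟩ := Ideal.Quotient.mk_surjective (H.θbar n r)
  have hp' : H.θbar m r = Ideal.Quotient.mk (H.Imin m) p := by
    rw [← H.factor_θbar hle, ← hp, Ideal.Quotient.factor_mk]
  rw [AlgHom.comp_apply, H.famMap_apply f hf n r p hp.symm, H.famMap_apply f hf m r p hp']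
  rfl

variable [IsAdicComplete (maximalIdeal A) A]

/-- the universal map -/
noncomputable def Hyp.lift (hf : ∀ n : ℕ, kerLevel f n ∈ ℱ) : H.R →ₐ[𝒪] A :=
  IsAdicComplete.liftAlgHom (maximalIdeal A) (H.famMap f hf) (fun hle => H.famMap_compat f hf hle)

theorem Hyp.mk_lift (hf : ∀ n : ℕ, kerLevel f n ∈ ℱ) (n : ℕ) (r : H.R) :
    Ideal.Quotient.mk (maximalIdeal A ^ n) (H.lift f hf r) = H.famMap f hf n r :=
  IsAdicComplete.mk_liftAlgHom (maximalIdeal A) (H.famMap f hf) _ n r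

theorem eq_of_forall_sub_mem_pow {a b : A} (h : ∀ n : ℕ, a - b ∈ maximalIdeal A ^ n) : a = b := by
  rw [← sub_eq_zero]
  apply IsHausdorff.haus (I := maximalIdeal A) inferInstance
  intro n
  rw [SModEq.zero, smul_eq_mul, Ideal.mul_top]
  exact h n

theorem Hyp.lift_comp_ι (hf : ∀ n : ℕ, kerLevel f n ∈ ℱ) : (H.lift f hf).comp H.ι = f := by
  ext p
  apply eq_of_forall_sub_mem_pow
  intro n
  rw [← Ideal.Quotient.eq, AlgHom.comp_apply, H.mk_lift,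
    H.famMap_apply f hf n (H.ι p) p (H.θbar_ι n p)]

theorem Hyp.lift_unique (hf : ∀ n : ℕ, kerLevel f n ∈ ℱ) (φ φ' : H.R →ₐ[𝒪] A)
    (hφ : φ.comp H.ι = f) (hφ' : φ'.comp H.ι = f) : φ = φ' := by
  ext r
  apply eq_of_forall_sub_mem_pow
  intro n
  obtain ⟨p, hp⟩ := H.exists_ι_sub_mem n r
  have h1 : ∀ ψ : H.R →ₐ[𝒪] A, ψ.comp H.ι = f → ψ (r - H.ι p) ∈ maximalIdeal A ^ (n + 1) := by
    intro ψ hψ
    have h2 : (ψ : H.R →+* A) (r - H.ι p) ∈ (maximalIdeal H.R ^ (n + 1)).map (ψ : H.R →+* A) :=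
      Ideal.mem_map_of_mem _ hp
    rw [Ideal.map_pow] at h2
    exact Ideal.pow_right_mono (H.map_maximalIdeal_le f hf ψ hψ) (n + 1) h2
  have e1 : φ (H.ι p) = f p := by rw [← hφ]; rfl
  have e2 : φ' (H.ι p) = f p := by rw [← hφ']; rfl
  have h3 : φ r - φ' r = φ (r - H.ι p) - φ' (r - H.ι p) := by
    rw [map_sub, map_sub, e1, e2]; ring
  rw [h3]
  exact Ideal.pow_le_pow_right (Nat.le_succ n)
    (Ideal.sub_mem _ (h1 φ hφ) (h1 φ' hφ'))

theorem Hyp.existsUnique_lift (hf : ∀ n : ℕ, kerLevel f n ∈ ℱ) :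
    ∃! φ : H.R →ₐ[𝒪] A, φ.comp H.ι = f :=
  ⟨H.lift f hf, H.lift_comp_ι f hf, fun φ hφ => H.lift_unique f hf φ _ hφ (H.lift_comp_ι f hf)⟩

end Universal

end Core

end Fermat.Agent.S53.ProRep
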