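import Mathlib
import Fermat.Agent.S53.ProRep.Core

set_option autoImplicit false
set_option linter.style.haveILetI false
set_option linter.unusedSectionVars false
set_option linter.unusedVariables false

open IsLocalRing

namespace Fermat.Agent.S53.ProRep

section Gen

variable {𝒪 : Type} [CommRing 𝒪] [IsLocalRing 𝒪] [IsNoetherianRing 𝒪]
variable {P : Type} [CommRing P] [Algebra 𝒪 P]

theorem algebraMap_mem_of_mem_maximalIdeal (𝔫 : Ideal P) (hmax : 𝔫.IsMaximal)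
    (hsurj : Function.Surjective ((Ideal.Quotient.mk 𝔫).comp (algebraMap 𝒪 P)))
    {c : 𝒪} (hc : c ∈ maximalIdeal 𝒪) : algebraMap 𝒪 P c ∈ 𝔫 := by
  haveI := hmax
  letI := Ideal.Quotient.field 𝔫
  have hmax' : (RingHom.ker ((Ideal.Quotient.mk 𝔫).comp (algebraMap 𝒪 P))).IsMaximal :=
    RingHom.ker_isMaximal_of_surjective _ hsurj
  have h := IsLocalRing.eq_maximalIdeal hmax'
  rw [← h, RingHom.mem_ker, RingHom.comp_apply, Ideal.Quotient.eq_zero_iff_mem] at hc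
  exact hc

/-- nilpotent Nakayama: if `𝔫 ≤ B ⊔ 𝔫 ^ 2` and some power of `𝔫` lies in `B`, then `𝔫 ≤ B`. -/
theorem le_of_le_sup_sq (𝔫 B : Ideal P) (h : 𝔫 ≤ B ⊔ 𝔫 ^ 2) (n : ℕ) (hn : 𝔫 ^ n ≤ B) :
    𝔫 ≤ B := by
  have key : ∀ j : ℕ, 𝔫 ≤ B ⊔ 𝔫 ^ (j + 1) := by
    intro j
    induction j with
    | zero => rw [zero_add, pow_one]; exact le_sup_right
    | succ j ih =>
      have h1 : 𝔫 ^ (j + 1) ≤ B ⊔ 𝔫 ^ (j + 1 + 1) := by
        calc 𝔫 ^ (j + 1) = 𝔫 ^ j * 𝔫 := pow_succ _ _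
          _ ≤ 𝔫 ^ j * (B ⊔ 𝔫 ^ 2) := Ideal.mul_mono_right h
          _ = 𝔫 ^ j * B ⊔ 𝔫 ^ j * 𝔫 ^ 2 := Ideal.mul_sup _ _ _
          _ ≤ B ⊔ 𝔫 ^ (j + 1 + 1) := by
            refine sup_le_sup Ideal.mul_le_right ?_
            rw [← pow_add]
      exact ih.trans (sup_le le_sup_left h1)
  rcases Nat.eq_zero_or_pos n with rfl | hpos
  · rw [pow_zero, Ideal.one_eq_top] at hn
    exact le_top.trans hn
  · obtain ⟨j, rfl⟩ := Nat.exists_eq_succ_of_ne_zero hpos.ne'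
    exact (key j).trans (sup_le le_rfl hn)

theorem exists_gen (𝔫 : Ideal P) (hmax : 𝔫.IsMaximal)
    (hsurj : Function.Surjective ((Ideal.Quotient.mk 𝔫).comp (algebraMap 𝒪 P)))
    (ℱ : Set (Ideal P))
    (hle : ∀ I ∈ ℱ, I ≤ 𝔫) (hpow : ∀ I ∈ ℱ, ∃ n : ℕ, 𝔫 ^ n ≤ I)
    (hfin : ∀ I ∈ ℱ, Finite (P ⧸ I))
    (hF4 : ∃ I₀ ∈ ℱ, ∀ I ∈ ℱ, I₀ ≤ I ⊔ 𝔫 ^ 2 ⊔ (maximalIdeal 𝒪).map (algebraMap 𝒪 P)) :
    ∃ Z : Set P, Z.Finite ∧ Z ⊆ 𝔫 ∧ ∀ I ∈ ℱ, 𝔫 ≤ I ⊔ Ideal.span Z := by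
  classical
  obtain ⟨I₀, hI₀, hI₀min⟩ := hF4
  haveI : Finite (P ⧸ I₀) := hfin I₀ hI₀
  set Y : Set P := Set.range (fun q : P ⧸ I₀ => Quotient.out q) ∩ (𝔫 : Set P) with hY
  have hYfin : Y.Finite := (Set.finite_range _).inter_of_left _
  obtain ⟨S₀, hS₀⟩ := (IsNoetherian.noetherian (maximalIdeal 𝒪) : (maximalIdeal 𝒪).FG)
  set Z : Set P := Y ∪ (algebraMap 𝒪 P '' (S₀ : Set 𝒪)) with hZ
  have hS₀mem : ∀ c ∈ (S₀ : Set 𝒪), c ∈ maximalIdeal 𝒪 := by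
    intro c hc
    rw [← hS₀]
    exact Ideal.subset_span hc
  refine ⟨Z, hYfin.union ((Finset.finite_toSet S₀).image _), ?_, ?_⟩
  · rintro x (hx | ⟨c, hc, rfl⟩)
    · exact hx.2
    · exact algebraMap_mem_of_mem_maximalIdeal 𝔫 hmax hsurj (hS₀mem c hc)
  · intro I hI
    have h1 : 𝔫 ≤ I₀ ⊔ Ideal.span Y := by
      intro x hx
      have hout : Ideal.Quotient.mk I₀ (Quotient.out (Ideal.Quotient.mk I₀ x)) =
          Ideal.Quotient.mk I₀ x := Ideal.Quotient.mk_out _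
      have hsub : Quotient.out (Ideal.Quotient.mk I₀ x) - x ∈ I₀ := Ideal.Quotient.eq.mp hout
      have hmem : Quotient.out (Ideal.Quotient.mk I₀ x) ∈ Y := by
        refine ⟨⟨_, rfl⟩, ?_⟩
        have : Quotient.out (Ideal.Quotient.mk I₀ x) =
            (Quotient.out (Ideal.Quotient.mk I₀ x) - x) + x := by ring
        show Quotient.out (Ideal.Quotient.mk I₀ x) ∈ 𝔫
        rw [this]
        exact 𝔫.add_mem (hle I₀ hI₀ hsub) hx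
      have : x = -(Quotient.out (Ideal.Quotient.mk I₀ x) - x) +
          Quotient.out (Ideal.Quotient.mk I₀ x) := by ring
      rw [this]
      exact Ideal.add_mem _ (Ideal.mem_sup_left (I₀.neg_mem hsub))
        (Ideal.mem_sup_right (Ideal.subset_span hmem))
    have h2 : (maximalIdeal 𝒪).map (algebraMap 𝒪 P) ≤ Ideal.span Z := by
      rw [← hS₀, Ideal.map_span]
      exact Ideal.span_mono Set.subset_union_right
    have h3 : Ideal.span Y ≤ Ideal.span Z := Ideal.span_mono Set.subset_union_left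
    have h4 : 𝔫 ≤ (I ⊔ Ideal.span Z) ⊔ 𝔫 ^ 2 := by
      refine h1.trans (sup_le ((hI₀min I hI).trans ?_) (h3.trans (le_sup_of_le_left le_sup_right)))
      refine sup_le (sup_le (le_sup_of_le_left le_sup_left) le_sup_right) ?_
      exact h2.trans (le_sup_of_le_left le_sup_right)
    obtain ⟨n, hn⟩ := hpow I hI
    exact le_of_le_sup_sq 𝔫 _ h4 n (hn.trans le_sup_left)

end Gen

/-- **Pro-representability from a filter of ideals**, given a finite set of topological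
generators of the augmentation ideal. -/
theorem exists_proRep_of_gen
    {𝒪 : Type} [CommRing 𝒪] [IsLocalRing 𝒪] [IsNoetherianRing 𝒪]
    {P : Type} [CommRing P] [Algebra 𝒪 P]
    (𝔫 : Ideal P) (hmax : 𝔫.IsMaximal)
    (hsurj : Function.Surjective ((Ideal.Quotient.mk 𝔫).comp (algebraMap 𝒪 P)))
    (ℱ : Set (Ideal P))
    (hle : ∀ I ∈ ℱ, I ≤ 𝔫) (hpow : ∀ I ∈ ℱ, ∃ n : ℕ, 𝔫 ^ n ≤ I)
    (hfin : ∀ I ∈ ℱ, Finite (P ⧸ I))
    (hinf : ∀ I ∈ ℱ, ∀ J ∈ ℱ, I ⊓ J ∈ ℱ)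
    (hup : ∀ I ∈ ℱ, ∀ J : Ideal P, I ≤ J → J ≤ 𝔫 → J ∈ ℱ)
    (htop : 𝔫 ∈ ℱ)
    (hgen : ∃ Z : Set P, Z.Finite ∧ Z ⊆ 𝔫 ∧ ∀ I ∈ ℱ, 𝔫 ≤ I ⊔ Ideal.span Z) :
    ∃ (R : Type) (_ : CommRing R) (_ : IsLocalRing R) (_ : IsNoetherianRing R)
      (_ : IsAdicComplete (maximalIdeal R) R) (_ : Algebra 𝒪 R)
      (_ : IsLocalHom (algebraMap 𝒪 R)) (ι : P →ₐ[𝒪] R),
      Function.Surjective (IsLocalRing.residue R ∘ algebraMap 𝒪 R) ∧
      (∀ n : ℕ, Function.Surjective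
        ((Ideal.Quotient.mk (maximalIdeal R ^ (n + 1))).comp (ι : P →+* R))) ∧
      (∀ n : ℕ, RingHom.ker
        ((Ideal.Quotient.mk (maximalIdeal R ^ (n + 1))).comp (ι : P →+* R)) ∈ ℱ) ∧
      (∀ I ∈ ℱ, ∃ n : ℕ, RingHom.ker
        ((Ideal.Quotient.mk (maximalIdeal R ^ (n + 1))).comp (ι : P →+* R)) ≤ I) ∧
      (∀ (A : Type) [CommRing A] [IsLocalRing A] [IsAdicComplete (maximalIdeal A) A]
        [Algebra 𝒪 A] (f : P →ₐ[𝒪] A),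
        (∀ n : ℕ, RingHom.ker
          ((Ideal.Quotient.mk (maximalIdeal A ^ (n + 1))).comp (f : P →+* A)) ∈ ℱ) →
        (∃! φ : R →ₐ[𝒪] A, φ.comp ι = f) ∧
          ∀ φ : R →ₐ[𝒪] A, φ.comp ι = f → IsLocalHom (φ : R →+* A)) := by
  obtain ⟨Z, hZfin, hZsub, hZgen⟩ := hgen
  haveI : Finite Z := hZfin.to_subtype
  have H : Hyp (𝒪 := 𝒪) 𝔫 ℱ (fun i : Z => (i : P)) :=
    { max := hmax, surj := hsurj, le := hle, pow_le := hpow, fin := hfin, inf := hinf, up := hup,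
      top := htop, hz := fun i => hZsub i.2,
      gen := fun I hI => by
        have : Set.range (fun i : Z => (i : P)) = Z := Subtype.range_coe
        rw [this]; exact hZgen I hI }
  refine ⟨H.R, inferInstance, inferInstance, inferInstance, inferInstance, inferInstance,
    inferInstance, H.ι, H.residue_surjective, H.surj_mk_comp_ι, ?_, ?_, ?_⟩
  · intro n
    rw [H.ker_mk_comp_ι]
    exact H.Imin_mem n
  · intro I hI
    obtain ⟨n, hn⟩ := H.exists_Imin_le hI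
    exact ⟨n, by rw [H.ker_mk_comp_ι]; exact hn⟩
  · intro A _ _ _ _ f hf
    exact ⟨H.existsUnique_lift f hf, fun φ hφ => H.isLocalHom_of_comp f hf φ hφ⟩

/-- **Pro-representability from a filter of ideals.** -/
theorem exists_proRep
    {𝒪 : Type} [CommRing 𝒪] [IsLocalRing 𝒪] [IsNoetherianRing 𝒪]
    {P : Type} [CommRing P] [Algebra 𝒪 P]
    (𝔫 : Ideal P) (hmax : 𝔫.IsMaximal)
    (hsurj : Function.Surjective ((Ideal.Quotient.mk 𝔫).comp (algebraMap 𝒪 P)))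
    (ℱ : Set (Ideal P))
    (hle : ∀ I ∈ ℱ, I ≤ 𝔫) (hpow : ∀ I ∈ ℱ, ∃ n : ℕ, 𝔫 ^ n ≤ I)
    (hfin : ∀ I ∈ ℱ, Finite (P ⧸ I))
    (hinf : ∀ I ∈ ℱ, ∀ J ∈ ℱ, I ⊓ J ∈ ℱ)
    (hup : ∀ I ∈ ℱ, ∀ J : Ideal P, I ≤ J → J ≤ 𝔫 → J ∈ ℱ)
    (htop : 𝔫 ∈ ℱ)
    (hF4 : ∃ I₀ ∈ ℱ, ∀ I ∈ ℱ, I₀ ≤ I ⊔ 𝔫 ^ 2 ⊔ (maximalIdeal 𝒪).map (algebraMap 𝒪 P)) :
    ∃ (R : Type) (_ : CommRing R) (_ : IsLocalRing R) (_ : IsNoetherianRing R)
      (_ : IsAdicComplete (maximalIdeal R) R) (_ : Algebra 𝒪 R)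
      (_ : IsLocalHom (algebraMap 𝒪 R)) (ι : P →ₐ[𝒪] R),
      Function.Surjective (IsLocalRing.residue R ∘ algebraMap 𝒪 R) ∧
      (∀ n : ℕ, Function.Surjective
        ((Ideal.Quotient.mk (maximalIdeal R ^ (n + 1))).comp (ι : P →+* R))) ∧
      (∀ n : ℕ, RingHom.ker
        ((Ideal.Quotient.mk (maximalIdeal R ^ (n + 1))).comp (ι : P →+* R)) ∈ ℱ) ∧
      (∀ I ∈ ℱ, ∃ n : ℕ, RingHom.ker
        ((Ideal.Quotient.mk (maximalIdeal R ^ (n + 1))).comp (ι : P →+* R)) ≤ I) ∧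
      (∀ (A : Type) [CommRing A] [IsLocalRing A] [IsAdicComplete (maximalIdeal A) A]
        [Algebra 𝒪 A] (f : P →ₐ[𝒪] A),
        (∀ n : ℕ, RingHom.ker
          ((Ideal.Quotient.mk (maximalIdeal A ^ (n + 1))).comp (f : P →+* A)) ∈ ℱ) →
        (∃! φ : R →ₐ[𝒪] A, φ.comp ι = f) ∧
          ∀ φ : R →ₐ[𝒪] A, φ.comp ι = f → IsLocalHom (φ : R →+* A)) :=
  exists_proRep_of_gen 𝔫 hmax hsurj ℱ hle hpow hfin hinf hup htop
    (exists_gen 𝔫 hmax hsurj ℱ hle hpow hfin hF4)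

end Fermat.Agent.S53.ProRep
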